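import Fermat.Agent.HairyBall.Schauder
import Mathlib.Analysis.Normed.Operator.Compact.FiniteDimension
import Mathlib.Analysis.Convex.TotallyBounded
import Mathlib.Analysis.Complex.Polynomial.Basic
import Mathlib.LinearAlgebra.Eigenspace.Triangularizable

/-!
# The invariant subspace theorem of Lomonosov

If no closed subspace is invariant under the commutant of `T`, the fixed point theorem of Schauder
gives `S` in the commutant with `S ∘ K` fixing a nonzero vector; `T` acts on the finite-dimensional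
space of such vectors, so has an eigenvalue.
-/

set_option autoImplicit false

noncomputable section

open Set Metric

namespace FA.Lomonosov

variable {E : Type*} [NormedAddCommGroup E] [NormedSpace ℂ E]

/-- The vectors reached from `y` by the operators commuting with `T`. -/
def orbitSubmodule (T : E →L[ℂ] E) (y : E) : Submodule ℂ E where
  carrier := {z | ∃ S : E →L[ℂ] E, Commute T S ∧ S y = z}
  zero_mem' := ⟨0, Commute.zero_right T, rfl⟩
  add_mem' := by
    rintro _ _ ⟨S, hS, rfl⟩ ⟨S', hS', rfl⟩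
    exact ⟨S + S', hS.add_right hS', rfl⟩
  smul_mem' := by
    rintro c _ ⟨S, hS, rfl⟩
    exact ⟨c • S, hS.smul_right c, rfl⟩

/-- Without hyperinvariant subspaces the orbit of a nonzero vector is dense. -/
theorem dense_orbit {T : E →L[ℂ] E}
    (h : ∀ M : Submodule ℂ E, IsClosed (M : Set E) →
      (∀ S : E →L[ℂ] E, Commute T S → ∀ x ∈ M, S x ∈ M) → M = ⊥ ∨ M = ⊤)
    {y : E} (hy : y ≠ 0) : Dense (orbitSubmodule T y : Set E) := by
  have hinv : ∀ S : E →L[ℂ] E, Commute T S → ∀ x ∈ (orbitSubmodule T y).topologicalClosure,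
      S x ∈ (orbitSubmodule T y).topologicalClosure := fun S hS x hx =>
    map_mem_closure S.continuous hx (by
      rintro _ ⟨S', hS', rfl⟩
      exact ⟨S * S', hS.mul_right hS', rfl⟩)
  rcases h _ (Submodule.isClosed_topologicalClosure _) hinv with hbot | htop
  · refine absurd ?_ hy
    have : y ∈ (orbitSubmodule T y).topologicalClosure :=
      Submodule.le_topologicalClosure _ ⟨1, Commute.one_right T, rfl⟩
    rwa [hbot, Submodule.mem_bot] at this
  · exact Submodule.dense_iff_topologicalClosure_eq_top.2 htop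

variable [CompleteSpace E]

/-- An operator of the commutant followed by `K` fixes a nonzero vector. -/
theorem exists_fixed_vector {T K : E →L[ℂ] E} (hK : IsCompactOperator K) (hK0 : K ≠ 0)
    (hdense : ∀ y : E, y ≠ 0 → Dense (orbitSubmodule T y : Set E)) :
    ∃ S : E →L[ℂ] E, Commute T S ∧ ∃ x : E, x ≠ 0 ∧ S (K x) = x := by
  classical
  obtain ⟨x₁, hx₁⟩ : ∃ x₁, K x₁ ≠ 0 := by
    by_contra hc
    simp only [not_exists, not_not] at hc
    exact hK0 (ContinuousLinearMap.ext fun x => by simp [hc x])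
  have hx₁0 : x₁ ≠ 0 := fun e => hx₁ (by rw [e, map_zero])
  obtain ⟨r, hr⟩ := exists_nat_gt (max (1 / ‖x₁‖) (‖K‖ / ‖K x₁‖))
  rw [max_lt_iff, div_lt_iff₀ (norm_pos_iff.2 hx₁0), div_lt_iff₀ (norm_pos_iff.2 hx₁)] at hr
  set x₀ : E := (r : ℂ) • x₁ with hx₀
  have h0 : 1 < ‖x₀‖ := by rw [hx₀, norm_smul, Complex.norm_natCast]; exact hr.1
  have hK₀ : ‖K‖ < ‖K x₀‖ := by
    rw [hx₀, map_smul, norm_smul, Complex.norm_natCast]; exact hr.2
  set B := closedBall x₀ 1
  set C := closure (K '' B)
  have hC : IsCompact C := (IsCompactOperator.isCompact_closure_image_closedBall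
      (f := (K : E →ₗ[ℂ] E)) hK (‖x₀‖ + 1)).of_isClosed_subset isClosed_closure
    (closure_mono (image_mono fun z hz => by
      rw [mem_closedBall_zero_iff]
      linarith [mem_closedBall_iff_norm.1 hz, norm_le_norm_add_norm_sub' z x₀]))
  have hC0 : ∀ z ∈ C, z ≠ 0 := fun z hz e => by
    have hsub : C ⊆ closedBall (K x₀) ‖K‖ := closure_minimal (by
      rintro _ ⟨w, hw, rfl⟩
      rw [mem_closedBall_iff_norm, ← map_sub]
      exact (K.le_opNorm _).trans (mul_le_of_le_one_right (norm_nonneg _)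
        (mem_closedBall_iff_norm.1 hw))) isClosed_closedBall
    have := mem_closedBall_iff_norm.1 (hsub hz)
    rw [e, zero_sub, norm_neg] at this
    linarith
  obtain ⟨t, ht⟩ := hC.elim_finite_subcover
    (fun S : {S : E →L[ℂ] E // Commute T S} => {y : E | ‖S.1 y - x₀‖ < 1})
    (fun S => isOpen_lt (S.1.continuous.sub continuous_const).norm continuous_const)
    fun z hz => by
      obtain ⟨v, hv, hvd⟩ := Metric.mem_closure_iff.1 (hdense z (hC0 z hz) x₀) 1 one_pos
      obtain ⟨S, hS, rfl⟩ := hv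
      refine mem_iUnion.2 ⟨⟨S, hS⟩, ?_⟩
      rwa [mem_ofPred_eq, ← dist_eq_norm, dist_comm]
  set w : {S : E →L[ℂ] E // Commute T S} → E → ℝ := fun S y => max 0 (1 - ‖S.1 y - x₀‖) with hw
  set Φ : E → E := fun y => t.centerMass (fun S => w S y) fun S => S.1 y with hΦ
  have hwc : ∀ S, Continuous (w S) := fun S => by simp only [hw]; fun_prop
  have hpos : ∀ y ∈ C, 0 < ∑ S ∈ t, w S y := fun y hy => by
    obtain ⟨S, hS, hyS⟩ := mem_iUnion₂.1 (ht hy)
    exact Finset.sum_pos' (fun j _ => le_max_left _ _)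
      ⟨S, hS, lt_max_of_lt_right (sub_pos.2 hyS)⟩
  have hΦB : ∀ y ∈ C, Φ y ∈ B := fun y hy => by
    rw [hΦ]
    dsimp only
    rw [← Finset.centerMass_filter_ne_zero]
    refine (convex_closedBall x₀ 1).centerMass_mem (fun i _ => le_max_left _ _) ?_ fun S hS => ?_
    · rw [Finset.sum_filter_ne_zero]
      exact hpos y hy
    · have h := (Finset.mem_filter.1 hS).2
      simp only [hw, ne_eq, max_eq_left_iff, not_le, sub_pos] at h
      exact mem_closedBall_iff_norm.2 h.le
  set U : Set E := ⋃ S ∈ t, S.1 '' C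
  have hU : IsCompact U := t.isCompact_biUnion fun S _ => hC.image S.1.continuous
  have hH : IsCompact (closure (convexHull ℝ U)) :=
    (totallyBounded_convexHull.2 hU.totallyBounded).closure.isCompact_of_isClosed isClosed_closure
  set s := closure (convexHull ℝ U) ∩ B
  have hmap : ∀ z ∈ B, Φ (K z) ∈ s := fun z hz => by
    have hz' : K z ∈ C := subset_closure (mem_image_of_mem K hz)
    exact ⟨subset_closure (t.centerMass_mem_convexHull (fun i _ => le_max_left _ _) (hpos _ hz')
      fun S hS => mem_iUnion₂.2 ⟨S, hS, mem_image_of_mem _ hz'⟩), hΦB _ hz'⟩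
  have hΦc : ContinuousOn (fun z => Φ (K z)) B := by
    have : ContinuousOn Φ C := by
      simp only [hΦ, Finset.centerMass]
      exact ((continuous_finsetSum _ fun i _ => hwc i).continuousOn.inv₀ fun x hx =>
        (hpos x hx).ne').smul
        (continuous_finsetSum _ fun i _ => (hwc i).smul i.1.continuous).continuousOn
    exact this.comp K.continuous.continuousOn fun z hz => subset_closure (mem_image_of_mem K hz)
  obtain ⟨x, hx, hfix⟩ := FA.HairyBall.exists_fixed (hH.inter_right isClosed_closedBall)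
    ((convex_convexHull ℝ U).closure.inter (convex_closedBall x₀ 1))
    ⟨_, hmap x₀ (mem_closedBall_self zero_le_one)⟩ (hΦc.mono inter_subset_right)
    fun z hz => hmap z hz.2
  set W := ∑ S ∈ t, w S (K x)
  refine ⟨((W⁻¹ : ℝ) : ℂ) • ∑ S ∈ t, ((w S (K x) : ℝ) : ℂ) • S.1,
    (Commute.sum_right _ _ _ fun S _ => S.2.smul_right _).smul_right _, x, fun e => ?_, ?_⟩
  · have := mem_closedBall_iff_norm.1 hx.2
    rw [e, zero_sub, norm_neg] at this
    linarith
  · calc _ = Φ (K x) := by
          simp only [hΦ, Finset.centerMass, W, smul_apply, _root_.sum_apply,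
            Complex.coe_smul]
      _ = x := hfix

/-- **Lomonosov's theorem.** -/
theorem exists_hyperinvariant {T K : E →L[ℂ] E} (hT : ∀ c : ℂ, T ≠ c • 1)
    (hK : IsCompactOperator K) (hK0 : K ≠ 0) (hcomm : Commute T K) :
    ∃ M : Submodule ℂ E, IsClosed (M : Set E) ∧ M ≠ ⊥ ∧ M ≠ ⊤ ∧
      ∀ S : E →L[ℂ] E, Commute T S → ∀ x ∈ M, S x ∈ M := by
  by_contra hcon
  have h : ∀ M : Submodule ℂ E, IsClosed (M : Set E) →
      (∀ S : E →L[ℂ] E, Commute T S → ∀ x ∈ M, S x ∈ M) → M = ⊥ ∨ M = ⊤ := fun M hM hinv => by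
    by_contra hne
    rw [not_or] at hne
    exact hcon ⟨M, hM, hne.1, hne.2, hinv⟩
  obtain ⟨S, hS, x, hx, hfix⟩ := exists_fixed_vector hK hK0 fun y hy => dense_orbit h hy
  set R : E →L[ℂ] E := S * K
  have hR : IsCompactOperator R := hK.clm_comp S
  set V : Submodule ℂ E := LinearMap.ker ((R - 1 : E →L[ℂ] E) : E →ₗ[ℂ] E) with hV
  have hmem : ∀ v, v ∈ V ↔ R v = v := fun v => by simp [hV, sub_eq_zero]
  have hVc : IsClosed (V : Set E) := ContinuousLinearMap.isClosed_ker (R - 1)
  have : FiniteDimensional ℂ V := by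
    refine FiniteDimensional.of_isCompactOperator_id (𝕜 := ℂ) ?_
    have hRV : ∀ v ∈ V, (R : E →ₗ[ℂ] E) v ∈ V := fun v hv => by
      rw [ContinuousLinearMap.coe_coe, (hmem v).1 hv]; exact hv
    have h' := IsCompactOperator.restrict (f := (R : E →ₗ[ℂ] E)) hR hRV hVc
    have e : ⇑((R : E →ₗ[ℂ] E).restrict hRV) = id := funext fun v => Subtype.ext ((hmem _).1 v.2)
    rw [e] at h'
    exact h'
  have hTR : Commute T R := hS.mul_right hcomm
  have hTV : ∀ v ∈ V, (T : E →ₗ[ℂ] E) v ∈ V := fun v hv => by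
    rw [hmem, ContinuousLinearMap.coe_coe]
    show (R * T) v = T v
    rw [← hTR.eq]
    show T (R v) = T v
    rw [(hmem v).1 hv]
  have : Nontrivial V :=
    ⟨⟨x, (hmem x).2 hfix⟩, 0, fun e => hx (congrArg Subtype.val e)⟩
  obtain ⟨c, hc⟩ := Module.End.exists_eigenvalue ((T : E →ₗ[ℂ] E).restrict hTV)
  obtain ⟨v, hv, hv0⟩ := hc.exists_hasEigenvector
  have hTv : T v = c • (v : E) := congrArg Subtype.val (Module.End.mem_eigenspace_iff.1 hv)
  rcases h (LinearMap.ker ((T - c • 1 : E →L[ℂ] E) : E →ₗ[ℂ] E))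
    (ContinuousLinearMap.isClosed_ker _) (fun S' hS' z hz => by
      have hz' : T z = c • z := by simpa [sub_eq_zero] using hz
      have : T (S' z) = S' (T z) := congrFun (congrArg DFunLike.coe hS'.eq) z
      simp [this, hz']) with e | e
  · have : (v : E) ∈ (⊥ : Submodule ℂ E) := e ▸ by simp [hTv]
    exact hv0 (Subtype.ext ((Submodule.mem_bot ℂ).1 this))
  · refine hT c (ContinuousLinearMap.ext fun z => ?_)
    have : z ∈ LinearMap.ker ((T - c • 1 : E →L[ℂ] E) : E →ₗ[ℂ] E) := e ▸ Submodule.mem_top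
    simpa [sub_eq_zero] using this

/-- **Aronszajn and Smith**: a compact operator has a nontrivial invariant subspace. -/
theorem exists_invariant_of_compact (hE : 1 < Module.rank ℂ E) {K : E →L[ℂ] E}
    (hK : IsCompactOperator K) :
    ∃ M : Submodule ℂ E, IsClosed (M : Set E) ∧ M ≠ ⊥ ∧ M ≠ ⊤ ∧ ∀ x ∈ M, K x ∈ M := by
  by_cases hs : ∀ c : ℂ, K ≠ c • 1
  · obtain ⟨M, h1, h2, h3, h4⟩ := exists_hyperinvariant hs hK
      (by simpa using hs 0) (Commute.refl K)
    exact ⟨M, h1, h2, h3, h4 K (Commute.refl K)⟩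
  simp only [not_forall, not_not] at hs
  obtain ⟨c, rfl⟩ := hs
  have : Nontrivial E := rank_pos_iff_nontrivial.1 (zero_lt_one.trans hE)
  obtain ⟨x, hx⟩ := exists_ne (0 : E)
  refine ⟨ℂ ∙ x, Submodule.closed_of_finiteDimensional _, by simpa using hx, fun e => ?_,
    fun y hy => by simpa using (ℂ ∙ x).smul_mem c hy⟩
  have h := rank_span_le (R := ℂ) ({x} : Set E)
  rw [e, rank_top, Cardinal.mk_singleton] at h
  exact absurd h (not_le.2 hE)

end FA.Lomonosov

end
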